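import Fermat.Agent.HermiteBiehler.Forward

/-!
# From interlacing to the zeros

`Q / P` is a constant plus a sum of simple fractions with residues of one sign.
-/

set_option autoImplicit false

noncomputable section

namespace FA.HermiteBiehler

open Polynomial Finset Complex

theorem eq_prod {P : ℝ[X]} (h : SimpleRealRooted P) :
    P = C P.leadingCoeff * Lagrange.nodal P.roots.toFinset id := by
  have h1 : P.roots.card = P.natDegree :=
    le_antisymm (card_roots' P) (h.2 ▸ Multiset.toFinset_card_le _)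
  have h2 : P.roots.Nodup :=
    Multiset.toFinset_card_eq_card_iff_nodup.1 (h.2.trans h1.symm)
  conv_lhs => rw [(splits_iff_card_roots.2 h1).eq_prod_roots]
  rw [Lagrange.nodal_eq, Finset.prod_eq_multiset_prod, Multiset.toFinset_val, h2.dedup]
  rfl

theorem eval_derivative_eq {P : ℝ[X]} (h : SimpleRealRooted P) {x : ℝ}
    (hx : x ∈ P.roots.toFinset) :
    (derivative P).eval x = P.leadingCoeff * ∏ y ∈ P.roots.toFinset.erase x, (x - y) := by
  conv_lhs => rw [eq_prod h]
  rw [derivative_C_mul, eval_mul, eval_C]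
  congr 1
  have := Lagrange.eval_nodal_derivative_eval_node_eq (v := id) hx
  simp only [id_eq] at this
  rw [this, Lagrange.eval_nodal]
  rfl

/-- The sign of a product of differences. -/
theorem sign_prod (x : ℝ) (T : Finset ℝ) (hx : x ∉ T) :
    0 < (-1 : ℝ) ^ #{y ∈ T | x < y} * ∏ y ∈ T, (x - y) := by
  induction T using Finset.induction with
  | empty => simp
  | insert a T ha ih =>
    rw [Finset.mem_insert, not_or] at hx
    have := ih hx.2
    rw [prod_insert ha, filter_insert]
    rcases lt_or_gt_of_ne hx.1 with h | h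
    · rw [if_pos h, card_insert_of_notMem (fun h' => ha (Finset.mem_filter.1 h').1), pow_succ]
      calc (0 : ℝ) < (a - x) * ((-1) ^ #{y ∈ T | x < y} * ∏ y ∈ T, (x - y)) :=
            mul_pos (sub_pos.2 h) this
        _ = _ := by ring
    · rw [if_neg h.not_gt]
      calc (0 : ℝ) < (x - a) * ((-1) ^ #{y ∈ T | x < y} * ∏ y ∈ T, (x - y)) :=
            mul_pos (sub_pos.2 h) this
        _ = _ := by ring

/-- Interlacing fixes the difference of the numbers of larger points. -/
theorem exists_shift {S T : Finset ℝ} (hST : ∀ x ∈ S, x ∉ T)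
    (hS : ∀ x ∈ S, ∀ y ∈ S, x < y → ∃ z ∈ T, x < z ∧ z < y)
    (hT : ∀ x ∈ T, ∀ y ∈ T, x < y → ∃ z ∈ S, x < z ∧ z < y) :
    ∃ c : ℕ, ∀ x ∈ S, #{y ∈ T | x < y} = #{y ∈ S | x < y} + c := by
  rcases S.eq_empty_or_nonempty with rfl | hne
  · exact ⟨0, by simp⟩
  refine ⟨#{y ∈ T | S.max' hne < y}, fun x hx => ?_⟩
  induction hk : #{y ∈ S | x < y} generalizing x with
  | zero =>
    have hmax : x = S.max' hne := le_antisymm (S.le_max' x hx) (not_lt.1 fun h =>
      (card_pos.2 ⟨_, Finset.mem_filter.2 ⟨S.max'_mem hne, h⟩⟩).ne' hk)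
    rw [zero_add, hmax]
  | succ k ih =>
    obtain ⟨x', hx', hmin⟩ := exists_min_image ({y ∈ S | x < y}) id (card_pos.1 (by omega))
    rw [Finset.mem_filter] at hx'
    have hnone : ∀ y ∈ S, x < y → x' ≤ y := fun y hy hxy =>
      hmin y (Finset.mem_filter.2 ⟨hy, hxy⟩)
    have h1 : ({y ∈ S | x < y} : Finset ℝ) = insert x' {y ∈ S | x' < y} := by
      ext y
      simp only [Finset.mem_filter, Finset.mem_insert]
      constructor
      · rintro ⟨hy, hxy⟩
        rcases (hnone y hy hxy).eq_or_lt with h | h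
        · exact Or.inl h.symm
        · exact Or.inr ⟨hy, h⟩
      · rintro (rfl | ⟨hy, h⟩)
        · exact hx'
        · exact ⟨hy, hx'.2.trans h⟩
    obtain ⟨z, hz, hxz, hzx⟩ := hS x hx x' hx'.1 hx'.2
    have honly : ∀ y ∈ T, x < y → y < x' → y = z := by
      intro y hy hxy hyx
      rcases lt_trichotomy y z with h | h | h
      · obtain ⟨w, hw, h3, h4⟩ := hT y hy z hz h
        exact absurd (hnone w hw (hxy.trans h3)) (not_le.2 (h4.trans hzx))
      · exact h
      · obtain ⟨w, hw, h3, h4⟩ := hT z hz y hy h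
        exact absurd (hnone w hw (hxz.trans h3)) (not_le.2 (h4.trans hyx))
    have h2 : ({y ∈ T | x < y} : Finset ℝ) = insert z {y ∈ T | x' < y} := by
      ext y
      simp only [Finset.mem_filter, Finset.mem_insert]
      constructor
      · rintro ⟨hy, hxy⟩
        rcases lt_trichotomy y x' with h | h | h
        · exact Or.inl (honly y hy hxy h)
        · exact absurd hy (h ▸ hST x' hx'.1)
        · exact Or.inr ⟨hy, h⟩
      · rintro (rfl | ⟨hy, h⟩)
        · exact ⟨hz, hxz⟩
        · exact ⟨hy, hx'.2.trans h⟩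
    rw [h1, card_insert_of_notMem (by simp)] at hk
    rw [h2, card_insert_of_notMem (fun h => hzx.not_gt (Finset.mem_filter.1 h).2),
      ih x' hx'.1 (by omega)]
    ring

/-- The residues have one sign. -/
theorem residue_signs {P Q : ℝ[X]} (h : Interlace P Q) :
    (∀ x ∈ P.roots.toFinset, 0 < Q.eval x * (derivative P).eval x) ∨
      ∀ x ∈ P.roots.toFinset, Q.eval x * (derivative P).eval x < 0 := by
  obtain ⟨hP, hQ, hdis, hPQ, hQP⟩ := h
  have hroot : ∀ {R : ℝ[X]}, R ≠ 0 → ∀ {x}, x ∈ R.roots.toFinset ↔ R.eval x = 0 :=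
    fun hR x => by rw [Multiset.mem_toFinset, mem_roots hR]; rfl
  obtain ⟨c, hc⟩ := exists_shift (S := P.roots.toFinset) (T := Q.roots.toFinset)
    (fun x hx hx' => hdis x ((hroot hP.1).1 hx) ((hroot hQ.1).1 hx'))
    (fun x hx y hy hxy => by
      obtain ⟨z, h1, h2, h3⟩ := hPQ x y hxy ((hroot hP.1).1 hx) ((hroot hP.1).1 hy)
      exact ⟨z, (hroot hQ.1).2 h3, h1, h2⟩)
    (fun x hx y hy hxy => by
      obtain ⟨z, h1, h2, h3⟩ := hQP x y hxy ((hroot hQ.1).1 hx) ((hroot hQ.1).1 hy)
      exact ⟨z, (hroot hP.1).2 h3, h1, h2⟩)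
  set σ : ℝ := P.leadingCoeff * Q.leadingCoeff * (-1) ^ c
  have key : ∀ x ∈ P.roots.toFinset, 0 < σ * (Q.eval x * (derivative P).eval x) := by
    intro x hx
    have hxQ : x ∉ Q.roots.toFinset := fun hx' => hdis x ((hroot hP.1).1 hx) ((hroot hQ.1).1 hx')
    have s1 := sign_prod x _ hxQ
    have s2 := sign_prod x (P.roots.toFinset.erase x) (notMem_erase x _)
    rw [show ({y ∈ P.roots.toFinset.erase x | x < y} : Finset ℝ) =
      {y ∈ P.roots.toFinset | x < y} by
        ext y; simp only [Finset.mem_filter, Finset.mem_erase]; exact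
          ⟨fun h => ⟨h.1.2, h.2⟩, fun h => ⟨⟨h.2.ne', h.1⟩, h.2⟩⟩] at s2
    rw [hc x hx] at s1
    have hQe : Q.eval x = Q.leadingCoeff * ∏ y ∈ Q.roots.toFinset, (x - y) := by
      conv_lhs => rw [eq_prod hQ]
      simp [Lagrange.eval_nodal]
    rw [eval_derivative_eq hP hx, hQe]
    have := mul_pos (mul_pos (pow_two_pos_of_ne_zero (mul_ne_zero (leadingCoeff_ne_zero.2 hP.1)
      (leadingCoeff_ne_zero.2 hQ.1))) s1) s2
    refine lt_of_lt_of_eq this ?_
    rw [pow_add]
    have hsq : ((-1 : ℝ) ^ #{y ∈ P.roots.toFinset | x < y}) ^ 2 = 1 := by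
      rw [← pow_mul, mul_comm, pow_mul]; simp
    simp only [σ]
    linear_combination (P.leadingCoeff * Q.leadingCoeff) ^ 2 * (-1) ^ c *
      (∏ y ∈ Q.roots.toFinset, (x - y)) * (∏ y ∈ P.roots.toFinset.erase x, (x - y)) * hsq
  rcases lt_trichotomy σ 0 with hσ | hσ | hσ
  · exact Or.inr fun x hx => by nlinarith [key x hx]
  · exact Or.inl fun x hx => absurd (key x hx) (by rw [hσ]; simp)
  · exact Or.inl fun x hx => by nlinarith [key x hx]

/-- Positive residues put the zeros below the line. -/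
theorem lowerZeros_of_residue {P Q : ℝ[X]} (hP : SimpleRealRooted P)
    (hdeg : Q.natDegree ≤ P.natDegree)
    (hres : ∀ x ∈ P.roots.toFinset, 0 < Q.eval x * (derivative P).eval x) :
    LowerZeros (combine P Q) := by
  intro z hz
  set S := P.roots.toFinset with hS
  by_cases hzS : ∃ x ∈ S, z = (x : ℂ)
  · obtain ⟨x, hx, rfl⟩ := hzS
    rw [eval_combine_ofReal] at hz
    have hq := congrArg im hz
    simp at hq
    have := hres x hx
    rw [hq] at this
    simp at this
  push Not at hzS
  set v : ℝ → ℂ := fun x => (x : ℂ) with hv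
  set N := Lagrange.nodal S v with hNdef
  have hN : (Lagrange.nodal S id).map ofRealHom = N := by
    simp [hNdef, Lagrange.nodal_eq, Polynomial.map_prod, hv]
  set t := Q.coeff #S with ht
  set R := Q - C t * Lagrange.nodal S id with hR
  have hRdeg : R.degree < (#S : ℕ) := by
    rw [degree_lt_iff_coeff_zero]
    intro m hm
    rw [hR, coeff_sub, coeff_C_mul]
    rcases hm.eq_or_lt with rfl | hm
    · have h1 : (Lagrange.nodal S (id : ℝ → ℝ)).coeff #S = 1 := by
        have := (Lagrange.nodal_monic (s := S) (v := (id : ℝ → ℝ))).coeff_natDegree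
        rwa [Lagrange.natDegree_nodal] at this
      rw [h1, mul_one, ht, sub_self]
    · rw [coeff_eq_zero_of_natDegree_lt (lt_of_le_of_lt (hdeg.trans hP.2.ge) hm),
        coeff_eq_zero_of_natDegree_lt (by rw [Lagrange.natDegree_nodal]; exact hm), mul_zero,
        sub_zero]
  have hRint : R.map ofRealHom = Lagrange.interpolate S v fun x => ((Q.eval x : ℝ) : ℂ) := by
    refine Lagrange.eq_interpolate_of_eval_eq _ Complex.ofReal_injective.injOn
      (by rwa [degree_map]) fun x hx => ?_
    have hx0 := Lagrange.eval_nodal_at_node (s := S) (v := (id : ℝ → ℝ)) hx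
    simp only [id_eq] at hx0
    rw [hv, eval_map_ofReal, hR, eval_sub, eval_mul, hx0, mul_zero, sub_zero]
  have hQz : (Q.map ofRealHom).eval z = (t : ℂ) * N.eval z + N.eval z *
      ∑ x ∈ S, Lagrange.nodalWeight S v x * (z - v x)⁻¹ * ((Q.eval x : ℝ) : ℂ) := by
    rw [← Lagrange.eval_interpolate_not_at_node _ hzS, ← hRint, hR]
    simp [hN]
  have hPz : (P.map ofRealHom).eval z = (P.leadingCoeff : ℂ) * N.eval z := by
    conv_lhs => rw [eq_prod hP]
    simp [hS, ← hN]
  have hN0 : N.eval z ≠ 0 := by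
    rw [hNdef, Lagrange.eval_nodal]
    exact prod_ne_zero_iff.2 fun x hx => sub_ne_zero.2 (hzS x hx)
  set a := P.leadingCoeff with ha
  have ha0 : a ≠ 0 := leadingCoeff_ne_zero.2 hP.1
  have hw : ∀ x ∈ S, Lagrange.nodalWeight S v x * ((Q.eval x : ℝ) : ℂ) =
      ((a * (Q.eval x / (derivative P).eval x) : ℝ) : ℂ) := by
    intro x hx
    have hprod : ∏ y ∈ S.erase x, ((x : ℂ) - (y : ℂ)) ≠ 0 :=
      prod_ne_zero_iff.2 fun y hy => sub_ne_zero.2 fun e =>
        (ne_of_mem_erase hy).symm (Complex.ofReal_injective e)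
    have ha' : (a : ℂ) ≠ 0 := ofReal_ne_zero.2 ha0
    rw [eval_derivative_eq hP hx, Lagrange.nodalWeight, ← ha, prod_inv_distrib, ← hS]
    simp only [hv]
    push_cast
    field_simp
  set T := ∑ x ∈ S, ((Q.eval x / (derivative P).eval x : ℝ) : ℂ) * (z - v x)⁻¹ with hT
  have hsum : ∑ x ∈ S, Lagrange.nodalWeight S v x * (z - v x)⁻¹ * ((Q.eval x : ℝ) : ℂ) = a * T := by
    rw [hT, mul_sum]
    refine sum_congr rfl fun x hx => ?_
    rw [mul_right_comm, hw x hx]
    push_cast
    ring
  rw [combine, eval_add, eval_mul, eval_C, hPz, hQz, hsum] at hz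
  have h0 : (a : ℂ) + I * ((t : ℂ) + a * T) = 0 := by
    apply mul_left_cancel₀ hN0
    rw [mul_zero, ← hz]
    ring
  have h1 := congrArg re h0
  simp at h1
  have h2 : T.im = 1 := mul_left_cancel₀ ha0 (by linarith)
  have h3 : T.im = -z.im * ∑ x ∈ S, Q.eval x / (derivative P).eval x / normSq (z - v x) := by
    rw [hT, Complex.im_sum, mul_sum]
    refine sum_congr rfl fun x _ => ?_
    simp [hv, inv_im]
    ring
  have h4 : 0 ≤ ∑ x ∈ S, Q.eval x / (derivative P).eval x / normSq (z - v x) :=
    sum_nonneg fun x hx => by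
      refine div_nonneg ?_ (normSq_nonneg _)
      have := hres x hx
      rcases lt_trichotomy ((derivative P).eval x) 0 with h | h | h
      · exact div_nonneg_of_nonpos (by nlinarith) h.le
      · rw [h]; simp
      · exact div_nonneg (by nlinarith) h.le
  rw [h2] at h3
  by_contra hcon
  nlinarith [mul_nonneg (not_lt.1 hcon) h4]

theorem sameSide_of_degree_le {P Q : ℝ[X]} (h : Interlace P Q)
    (hdeg : Q.natDegree ≤ P.natDegree) :
    LowerZeros (combine P Q) ∨ UpperZeros (combine P Q) := by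
  rcases residue_signs h with hs | hs
  · exact Or.inl (lowerZeros_of_residue h.1 hdeg hs)
  · refine Or.inr ((upperZeros_iff_lowerZeros_neg P Q).2
      (lowerZeros_of_residue h.1 (by simpa using hdeg) fun x hx => ?_))
    simpa using hs x hx

/-- The converse half. -/
theorem sameSide_of_interlace {P Q : ℝ[X]} (h : Interlace P Q) :
    LowerZeros (combine P Q) ∨ UpperZeros (combine P Q) := by
  rcases le_total Q.natDegree P.natDegree with hd | hd
  · exact sameSide_of_degree_le h hd
  · have h' : Interlace Q (-P) := interlace_neg_right.2 h.symm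
    have he : ∀ z, (combine Q (-P)).eval z = 0 ↔ (combine P Q).eval z = 0 := fun z => by
      have : (combine Q (-P)).eval z = -I * (combine P Q).eval z := by
        simp [combine, mul_add, ← mul_assoc]
        ring
      simp [this]
    rcases sameSide_of_degree_le h' (by simpa using hd) with h1 | h1
    · exact Or.inl fun z hz => h1 z ((he z).2 hz)
    · exact Or.inr fun z hz => h1 z ((he z).2 hz)

end FA.HermiteBiehler
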