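import Mathlib

/-!
# Polynomials with all zeros in one half-plane

`F = P + i Q` with real `P` and `Q`.
-/

set_option autoImplicit false

noncomputable section

namespace FA.HermiteBiehler

open Polynomial Finset Complex
open scoped ComplexConjugate

/-- Only real simple zeros. -/
def SimpleRealRooted (P : ℝ[X]) : Prop := P ≠ 0 ∧ #P.roots.toFinset = P.natDegree

/-- Between two zeros of the first lies one of the second. -/
def Separates (P Q : ℝ[X]) : Prop :=
  ∀ x y : ℝ, x < y → P.eval x = 0 → P.eval y = 0 → ∃ z, x < z ∧ z < y ∧ Q.eval z = 0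

/-- Only real simple zeros, none common, each strictly separating the other. -/
def Interlace (P Q : ℝ[X]) : Prop :=
  SimpleRealRooted P ∧ SimpleRealRooted Q ∧ (∀ x, P.eval x = 0 → Q.eval x ≠ 0) ∧
    Separates P Q ∧ Separates Q P

/-- `P + i Q`. -/
def combine (P Q : ℝ[X]) : ℂ[X] := P.map ofRealHom + C I * Q.map ofRealHom

/-- All zeros below the real line. -/
def LowerZeros (F : ℂ[X]) : Prop := ∀ z : ℂ, F.eval z = 0 → z.im < 0

/-- All zeros above the real line. -/
def UpperZeros (F : ℂ[X]) : Prop := ∀ z : ℂ, F.eval z = 0 → 0 < z.im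

theorem eval_map_ofReal (P : ℝ[X]) (x : ℝ) :
    (P.map ofRealHom).eval (x : ℂ) = ((P.eval x : ℝ) : ℂ) :=
  eval_map_apply ofRealHom x

theorem eval_map_conj (P : ℝ[X]) (z : ℂ) :
    (P.map ofRealHom).eval (conj z) = conj ((P.map ofRealHom).eval z) := by
  induction P using Polynomial.induction_on' with
  | add p q hp hq => simp [hp, hq]
  | monomial n a => simp

theorem eval_combine_ofReal (P Q : ℝ[X]) (x : ℝ) :
    (combine P Q).eval (x : ℂ) = ((P.eval x : ℝ) : ℂ) + I * ((Q.eval x : ℝ) : ℂ) := by
  simp [combine, eval_map_ofReal]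

theorem eval_combine_neg (P Q : ℝ[X]) (z : ℂ) :
    (combine P (-Q)).eval z = conj ((combine P Q).eval (conj z)) := by
  simp [combine, eval_map_conj, map_add, map_mul]

theorem upperZeros_iff_lowerZeros_neg (P Q : ℝ[X]) :
    UpperZeros (combine P Q) ↔ LowerZeros (combine P (-Q)) := by
  constructor
  · intro h z hz
    rw [eval_combine_neg, map_eq_zero] at hz
    simpa using h _ hz
  · intro h z hz
    have := h (conj z) (by rw [eval_combine_neg, Complex.conj_conj, hz, map_zero])
    simpa using this

theorem coeff_combine (P Q : ℝ[X]) (n : ℕ) :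
    (combine P Q).coeff n = (P.coeff n : ℂ) + I * (Q.coeff n : ℂ) := by
  simp [combine]

theorem natDegree_combine (P Q : ℝ[X]) :
    (combine P Q).natDegree = max P.natDegree Q.natDegree := by
  refine le_antisymm (natDegree_le_iff_coeff_eq_zero.2 fun n hn => ?_) (max_le ?_ ?_)
  · rw [coeff_combine, coeff_eq_zero_of_natDegree_lt (lt_of_le_of_lt (le_max_left _ _) hn),
      coeff_eq_zero_of_natDegree_lt (lt_of_le_of_lt (le_max_right _ _) hn)]
    simp
  · refine natDegree_le_iff_coeff_eq_zero.2 fun n hn => ?_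
    have h := congrArg re ((coeff_combine P Q n).symm.trans (coeff_eq_zero_of_natDegree_lt hn))
    simpa using h
  · refine natDegree_le_iff_coeff_eq_zero.2 fun n hn => ?_
    have h := congrArg im ((coeff_combine P Q n).symm.trans (coeff_eq_zero_of_natDegree_lt hn))
    simpa using h

theorem separates_neg {P Q : ℝ[X]} :
    (Separates P (-Q) ↔ Separates P Q) ∧ (Separates (-Q) P ↔ Separates Q P) := by
  simp [Separates]

theorem interlace_neg_right {P Q : ℝ[X]} : Interlace P (-Q) ↔ Interlace P Q := by
  simp [Interlace, SimpleRealRooted, separates_neg, roots_neg]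

theorem Interlace.symm {P Q : ℝ[X]} (h : Interlace P Q) : Interlace Q P :=
  ⟨h.2.1, h.1, fun x hq hp => h.2.2.1 x hp hq, h.2.2.2.2, h.2.2.2.1⟩

theorem wronskian_eval (P Q : ℝ[X]) (x : ℝ) :
    (wronskian P Q).eval x =
      P.eval x * (derivative Q).eval x - (derivative P).eval x * Q.eval x := by
  simp [wronskian]

end FA.HermiteBiehler
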