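import Fermat.Agent.HermiteBiehler.Defs

/-!
# From the zeros to interlacing

On the real line the argument of `F` is monotone, and off it `|F|` differs from `|F*|`.
-/

set_option autoImplicit false

noncomputable section

namespace FA.HermiteBiehler

open Polynomial Finset Complex
open scoped ComplexConjugate

theorem norm_prod_lt {z : ℂ} (hz : 0 < z.im) :
    ∀ s : Multiset ℂ, s ≠ 0 → (∀ a ∈ s, a.im < 0) →
      ‖(s.map fun a => conj z - a).prod‖ < ‖(s.map fun a => z - a).prod‖ := by
  intro s
  induction s using Multiset.induction_on with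
  | empty => simp
  | cons a s ih =>
    intro _ hs
    have ha := hs a (Multiset.mem_cons_self a s)
    have h1 : ‖conj z - a‖ < ‖z - a‖ := by
      refine (sq_lt_sq₀ (norm_nonneg _) (norm_nonneg _)).1 ?_
      simp only [Complex.sq_norm, normSq_apply, sub_re, sub_im, conj_re, conj_im]
      nlinarith [mul_neg_of_pos_of_neg hz ha]
    simp only [Multiset.map_cons, Multiset.prod_cons, norm_mul]
    rcases eq_or_ne s 0 with rfl | hs0
    · simpa using h1
    · exact mul_lt_mul'' h1 (ih hs0 fun b hb => hs b (Multiset.mem_cons_of_mem hb))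
        (norm_nonneg _) (norm_nonneg _)

variable {P Q : ℝ[X]}

theorem roots_ne_zero (hn : 0 < max P.natDegree Q.natDegree) : (combine P Q).roots ≠ 0 := by
  intro h
  have := (IsAlgClosed.splits (combine P Q)).natDegree_eq_card_roots
  rw [natDegree_combine, h, Multiset.card_zero] at this
  omega

theorem combine_ne_zero (hn : 0 < max P.natDegree Q.natDegree) : combine P Q ≠ 0 := by
  intro h
  have := natDegree_combine P Q
  rw [h, natDegree_zero] at this
  omega

/-- Off the real line one of the conjugates dominates. -/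
theorem norm_eval_lt (hn : 0 < max P.natDegree Q.natDegree) (h : LowerZeros (combine P Q)) {z : ℂ}
    (hz : 0 < z.im) : ‖(combine P Q).eval (conj z)‖ < ‖(combine P Q).eval z‖ := by
  rw [(IsAlgClosed.splits _).eval_eq_prod_roots, (IsAlgClosed.splits _).eval_eq_prod_roots,
    norm_mul, norm_mul]
  exact mul_lt_mul_of_pos_left (norm_prod_lt hz _ (roots_ne_zero hn)
    fun a ha => h a (isRoot_of_mem_roots ha))
    (norm_pos_iff.2 (leadingCoeff_ne_zero.2 (combine_ne_zero hn)))

/-- The argument decreases along the real line. -/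
theorem wronskian_neg (hn : 0 < max P.natDegree Q.natDegree) (h : LowerZeros (combine P Q))
    (x : ℝ) : (wronskian P Q).eval x < 0 := by
  set F := combine P Q with hF
  have hx : F.eval (x : ℂ) ≠ 0 := fun h0 => by simpa using h _ h0
  have hd := (IsAlgClosed.splits F).eval_derivative_eq_eval_mul_sum hx
  have him : ((F.roots.map fun a : ℂ => 1 / ((x : ℂ) - a)).sum).im < 0 := by
    obtain ⟨a, ha⟩ := Multiset.exists_mem_of_ne_zero (roots_ne_zero hn)
    rw [show ∀ s : Multiset ℂ, s.sum.im = (s.map Complex.im).sum from fun s =>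
      map_multiset_sum Complex.imAddGroupHom s, Multiset.map_map]
    have hle : ∀ b ∈ F.roots, ((fun a : ℂ => 1 / ((x : ℂ) - a)) b).im < 0 := fun b hb => by
      have hb' := h b (isRoot_of_mem_roots hb)
      simp only [one_div, inv_im, sub_im, ofReal_im, zero_sub, neg_neg]
      exact div_neg_of_neg_of_pos hb' (normSq_pos.2 fun e => by
        have := congrArg im e
        simp at this
        linarith)
    calc (F.roots.map (Complex.im ∘ fun a : ℂ => 1 / ((x : ℂ) - a))).sum
        < (F.roots.map fun _ => (0 : ℝ)).sum :=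
          Multiset.sum_lt_sum (fun b hb => (hle b hb).le) ⟨a, ha, hle a ha⟩
      _ = 0 := by simp
  have hW : (conj (F.eval (x : ℂ)) * F.derivative.eval (x : ℂ)).im = (wronskian P Q).eval x := by
    have hd' : F.derivative = combine (derivative P) (derivative Q) := by
      simp [hF, combine, derivative_map]
    rw [hd', hF, eval_combine_ofReal, eval_combine_ofReal, wronskian_eval]
    simp
    ring
  rw [← hW, hd, ← mul_assoc, ← normSq_eq_conj_mul_self, Complex.im_ofReal_mul]
  exact mul_neg_of_pos_of_neg (normSq_pos.2 hx) him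

/-- A nonreal point is a zero of neither part. -/
theorem eval_ne_zero_of_im (hn : 0 < max P.natDegree Q.natDegree) (h : LowerZeros (combine P Q))
    {z : ℂ} (hz : z.im ≠ 0) :
    (P.map ofRealHom).eval z ≠ 0 ∧ (Q.map ofRealHom).eval z ≠ 0 := by
  have key : ∀ w : ℂ, 0 < w.im →
      (P.map ofRealHom).eval w ≠ 0 ∧ (Q.map ofRealHom).eval w ≠ 0 := by
    intro w hw
    refine ⟨fun h0 => ?_, fun h0 => ?_⟩ <;>
      · have := norm_eval_lt hn h hw
        simp [combine, eval_map_conj, h0] at this
  rcases hz.lt_or_gt with hz | hz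
  · have := key (conj z) (by simpa using hz)
    simpa [eval_map_conj] using this
  · exact key z hz

theorem simpleRealRooted_of {R : ℝ[X]} (h0 : R ≠ 0)
    (hreal : ∀ z : ℂ, (R.map ofRealHom).eval z = 0 → z.im = 0)
    (hsimple : ∀ x, R.eval x = 0 → (derivative R).eval x ≠ 0) : SimpleRealRooted R := by
  refine ⟨h0, ?_⟩
  have hinj : Function.Injective ofRealHom := Complex.ofReal_injective
  have hR : R.map ofRealHom ≠ 0 := (Polynomial.map_ne_zero_iff hinj).2 h0
  have hsimple' : ∀ z : ℂ, (R.map ofRealHom).eval z = 0 →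
      (derivative (R.map ofRealHom)).eval z ≠ 0 := by
    intro z hz
    obtain ⟨x, rfl⟩ : ∃ x : ℝ, (x : ℂ) = z := ⟨z.re, Complex.ext rfl (hreal z hz).symm⟩
    rw [derivative_map, eval_map_ofReal]
    exact_mod_cast hsimple x (by exact_mod_cast (eval_map_ofReal R x).symm.trans hz)
  have hnd : (R.map ofRealHom).roots.Nodup := by
    refine Multiset.nodup_iff_count_le_one.2 fun z => ?_
    rw [count_roots]
    by_contra hcon
    obtain ⟨h1, h2⟩ := (one_lt_rootMultiplicity_iff_isRoot hR).1 (not_le.1 hcon)
    exact hsimple' z h1 h2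
  have himg : (R.map ofRealHom).roots.toFinset ⊆ R.roots.toFinset.image ofReal := by
    intro z hz
    rw [Multiset.mem_toFinset, mem_roots hR] at hz
    refine Finset.mem_image.2 ⟨z.re, ?_, Complex.ext rfl (by simp [hreal z hz])⟩
    rw [Multiset.mem_toFinset, mem_roots h0]
    have : ((R.eval z.re : ℝ) : ℂ) = 0 := by
      rw [← eval_map_ofReal, show (z.re : ℂ) = z from Complex.ext rfl (by simp [hreal z hz])]
      exact hz
    exact_mod_cast this
  have h1 := (Finset.card_le_card himg).trans Finset.card_image_le
  rw [Multiset.toFinset_card_of_nodup hnd,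
    ← (IsAlgClosed.splits _).natDegree_eq_card_roots, natDegree_map] at h1
  exact le_antisymm ((Multiset.toFinset_card_le _).trans (card_roots' _)) h1

theorem separates_of_wronskian {P Q : ℝ[X]} (hW : ∀ x, (wronskian P Q).eval x ≠ 0) :
    Separates P Q := by
  intro a b hab ha hb
  by_contra hcon
  push Not at hcon
  have hQ : ∀ t ∈ Set.Icc a b, Q.eval t ≠ 0 := fun t ht h0 => by
    rcases eq_or_lt_of_le ht.1 with rfl | h1
    · exact hW a (by simp [wronskian_eval, ha, h0])
    rcases eq_or_lt_of_le ht.2 with rfl | h2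
    · exact hW t (by simp [wronskian_eval, hb, h0])
    exact hcon t h1 h2 h0
  obtain ⟨c, hc, hd⟩ := exists_deriv_eq_zero hab
    (f := fun t => P.eval t / Q.eval t)
    (P.continuous.continuousOn.div Q.continuous.continuousOn hQ) (by simp [ha, hb])
  have hc' := hQ c (Set.Ioo_subset_Icc_self hc)
  rw [((P.hasDerivAt c).fun_div (Q.hasDerivAt c) hc').deriv, div_eq_zero_iff] at hd
  rcases hd with hd | hd
  · exact hW c (by rw [wronskian_eval]; linarith)
  · exact hc' (eq_zero_of_pow_eq_zero hd)

/-- The direct half of the theorem. -/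
theorem interlace_of_lowerZeros (hn : 0 < max P.natDegree Q.natDegree)
    (h : LowerZeros (combine P Q)) :
    Interlace P Q ∧ ∀ x, (wronskian P Q).eval x < 0 := by
  have hW := wronskian_neg hn h
  have hW' : ∀ x, (wronskian Q P).eval x ≠ 0 := fun x h0 => by
    have := hW x
    rw [wronskian_eval] at this h0
    linarith
  have hP : P ≠ 0 := fun h0 => (hW 0).ne (by simp [h0])
  have hQ : Q ≠ 0 := fun h0 => (hW 0).ne (by simp [h0])
  refine ⟨⟨simpleRealRooted_of hP ?_ ?_, simpleRealRooted_of hQ ?_ ?_, ?_,
    separates_of_wronskian fun x => (hW x).ne, separates_of_wronskian hW'⟩, hW⟩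
  · exact fun z hz => by_contra fun hne => (eval_ne_zero_of_im hn h hne).1 hz
  · exact fun x hx h' => (hW x).ne (by simp [wronskian_eval, hx, h'])
  · exact fun z hz => by_contra fun hne => (eval_ne_zero_of_im hn h hne).2 hz
  · exact fun x hx h' => (hW x).ne (by simp [wronskian_eval, hx, h'])
  · exact fun x hp hq => (hW x).ne (by simp [wronskian_eval, hp, hq])

end FA.HermiteBiehler
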