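import Fermat.Agent.HermiteBiehler.Converse

/-!
# The theorem with its orientation, and stability
-/

set_option autoImplicit false

noncomputable section

namespace FA.HermiteBiehler

open Polynomial Finset Complex

variable {P Q : ℝ[X]}

theorem lowerZeros_iff (hn : 0 < max P.natDegree Q.natDegree) :
    LowerZeros (combine P Q) ↔ Interlace P Q ∧ ∀ x, (wronskian P Q).eval x < 0 := by
  refine ⟨interlace_of_lowerZeros hn, fun ⟨hI, hW⟩ => ?_⟩
  refine (sameSide_of_interlace hI).resolve_right fun hU => ?_
  have h := (interlace_of_lowerZeros (by simpa using hn)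
    ((upperZeros_iff_lowerZeros_neg P Q).1 hU)).2 0
  have h' := hW 0
  simp only [wronskian_eval, derivative_neg, eval_neg] at h h'
  linarith

theorem upperZeros_iff (hn : 0 < max P.natDegree Q.natDegree) :
    UpperZeros (combine P Q) ↔ Interlace P Q ∧ ∀ x, 0 < (wronskian P Q).eval x := by
  rw [upperZeros_iff_lowerZeros_neg, lowerZeros_iff (by simpa using hn), interlace_neg_right]
  refine and_congr_right fun _ => forall_congr' fun x => ?_
  simp only [wronskian_eval, derivative_neg, eval_neg]
  constructor <;> intro h <;> linarith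

theorem sameSide_iff (hn : 0 < max P.natDegree Q.natDegree) :
    LowerZeros (combine P Q) ∨ UpperZeros (combine P Q) ↔ Interlace P Q :=
  ⟨fun h => h.elim (fun h => ((lowerZeros_iff hn).1 h).1) fun h => ((upperZeros_iff hn).1 h).1,
    sameSide_of_interlace⟩

/-- Stability of a real polynomial by its values on the imaginary axis. -/
theorem stable_iff {p : ℝ[X]} (hp : 0 < p.natDegree)
    (hPQ : ∀ y : ℝ, (p.map ofRealHom).eval (I * y) =
      ((P.eval y : ℝ) : ℂ) + I * ((Q.eval y : ℝ) : ℂ)) :
    (∀ z : ℂ, (p.map ofRealHom).eval z = 0 → z.re < 0) ↔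
      Interlace P Q ∧ ∀ y, 0 < (wronskian P Q).eval y := by
  have he : combine P Q = (p.map ofRealHom).comp (C I * X) := by
    refine eq_of_infinite_eval_eq _ _
      ((Set.infinite_range_of_injective Complex.ofReal_injective).mono ?_)
    rintro _ ⟨y, rfl⟩
    simp only [Set.mem_ofPred_eq, eval_combine_ofReal, eval_comp, eval_mul, eval_C, eval_X]
    exact (hPQ y).symm
  have hn : 0 < max P.natDegree Q.natDegree := by
    rw [← natDegree_combine, he, natDegree_comp, natDegree_map, natDegree_C_mul_X I I_ne_zero,
      mul_one]
    exact hp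
  rw [← upperZeros_iff hn, UpperZeros, he]
  simp only [eval_comp, eval_mul, eval_C, eval_X]
  constructor
  · intro h w hw
    simpa using h _ hw
  · intro h z hz
    have := h (-I * z) (by rwa [← mul_assoc, mul_neg, I_mul_I, neg_neg, one_mul])
    simpa using this

end FA.HermiteBiehler
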